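import Mathlib

/-!
# Primitive forms and united forms

Proper equivalence, forms representing a number prime to a given one, and united representatives
`(a₁, B, a₂ C)`, `(a₂, B, a₁ C)` for any two forms.
-/

set_option autoImplicit false

namespace FA.GaussComposition

/-- Primitive binary forms of discriminant `D`, positive definite for `D < 0`. -/
@[ext] structure Form (D : ℤ) where
  a : ℤ
  b : ℤ
  c : ℤ
  disc : b ^ 2 - 4 * a * c = D
  prim : ∀ p : ℕ, p.Prime → (p : ℤ) ∣ a → (p : ℤ) ∣ b → (p : ℤ) ∣ c → False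
  pos : D < 0 → 0 < a

variable {D : ℤ}

/-- The value of a form. -/
def Form.eval (f : Form D) (x y : ℤ) : ℤ := f.a * x ^ 2 + f.b * x * y + f.c * y ^ 2

/-- Proper equivalence. -/
def Form.Equivalent (f g : Form D) : Prop :=
  ∃ p q r s : ℤ, p * s - q * r = 1 ∧ g.a = f.eval p r ∧
    g.b = 2 * f.a * p * q + f.b * (p * s + q * r) + 2 * f.c * r * s ∧ g.c = f.eval q s

/-- `f` represents `m`. -/
def Form.Represents (f : Form D) (m : ℤ) : Prop := ∃ x y : ℤ, f.eval x y = m

theorem Form.Equivalent.eval_eq {f g : Form D} {p q r s : ℤ} (ha : g.a = f.eval p r)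
    (hb : g.b = 2 * f.a * p * q + f.b * (p * s + q * r) + 2 * f.c * r * s) (hc : g.c = f.eval q s)
    (x y : ℤ) : g.eval x y = f.eval (p * x + q * y) (r * x + s * y) := by
  simp only [Form.eval] at ha hc ⊢
  rw [ha, hb, hc]
  ring

theorem Form.Equivalent.represents_iff {f g : Form D} (h : f.Equivalent g) (m : ℤ) :
    g.Represents m ↔ f.Represents m := by
  obtain ⟨p, q, r, s, hdet, ha, hb, hc⟩ := h
  constructor
  · rintro ⟨x, y, rfl⟩
    exact ⟨_, _, (Form.Equivalent.eval_eq ha hb hc x y).symm⟩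
  · rintro ⟨x, y, rfl⟩
    refine ⟨s * x - q * y, p * y - r * x, ?_⟩
    rw [Form.Equivalent.eval_eq ha hb hc]
    congr 1
    · linear_combination x * hdet
    · linear_combination y * hdet

section Nonsquare

variable (hD : ¬IsSquare D)
include hD

theorem Form.eval_ne_zero (f : Form D) {x y : ℤ} (h : IsCoprime x y) : f.eval x y ≠ 0 :=
    fun h0 => by
  rcases eq_or_ne y 0 with rfl | hy
  · have hx : x ^ 2 = 1 := by
      rw [isCoprime_zero_right, Int.isUnit_iff] at h
      rcases h with rfl | rfl <;> norm_num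
    rw [Form.eval] at h0
    refine hD ⟨f.b, ?_⟩
    linear_combination -f.disc - 4 * f.c * (h0 - f.a * hx)
  · have hd : (2 * f.a * x + f.b * y) ^ 2 = D * y ^ 2 := by
      rw [Form.eval] at h0
      linear_combination 4 * f.a * h0 + y ^ 2 * f.disc
    obtain ⟨t, ht⟩ : y ∣ 2 * f.a * x + f.b * y :=
      (Int.pow_dvd_pow_iff two_ne_zero).1 ⟨D, by rw [hd, mul_comm]⟩
    rw [ht, mul_pow, mul_comm] at hd
    exact hD ⟨t, by rw [← sq]; exact (mul_right_cancel₀ (pow_ne_zero 2 hy) hd).symm⟩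

theorem Form.a_ne_zero (f : Form D) : f.a ≠ 0 := by
  simpa [Form.eval] using f.eval_ne_zero hD (isCoprime_one_left (x := (0 : ℤ)))

theorem Form.c_ne_zero (f : Form D) : f.c ≠ 0 := by
  simpa [Form.eval] using f.eval_ne_zero hD (isCoprime_one_right (x := (0 : ℤ)))

theorem Form.eval_pos (f : Form D) (hneg : D < 0) {x y : ℤ} (h : IsCoprime x y) :
    0 < f.eval x y := by
  have h4 : 0 ≤ f.a * f.eval x y := by
    have : 4 * (f.a * f.eval x y) = (2 * f.a * x + f.b * y) ^ 2 - D * y ^ 2 := by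
      rw [Form.eval]
      linear_combination (-y ^ 2) * f.disc
    nlinarith [sq_nonneg (2 * f.a * x + f.b * y), sq_nonneg y]
  exact lt_of_le_of_ne (nonneg_of_mul_nonneg_right h4 (f.pos hneg)) (f.eval_ne_zero hD h).symm

/-- Change of variables. -/
theorem Form.exists_transform (f : Form D) {p q r s : ℤ} (hdet : p * s - q * r = 1) :
    ∃ g : Form D, f.Equivalent g ∧ g.a = f.eval p r ∧
      g.b = 2 * f.a * p * q + f.b * (p * s + q * r) + 2 * f.c * r * s := by
  refine ⟨⟨f.eval p r, 2 * f.a * p * q + f.b * (p * s + q * r) + 2 * f.c * r * s, f.eval q s,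
    ?_, fun l hl h1 h2 h3 => f.prim l hl ?_ ?_ ?_, fun h => ?_⟩, ⟨p, q, r, s, hdet, rfl, rfl, rfl⟩,
    rfl, rfl⟩
  · simp only [Form.eval]
    linear_combination (f.b ^ 2 - 4 * f.a * f.c) * (p * s - q * r + 1) * hdet + f.disc
  · have e : f.a = f.eval p r * s ^ 2 +
        (2 * f.a * p * q + f.b * (p * s + q * r) + 2 * f.c * r * s) * s * (-r) +
        f.eval q s * r ^ 2 := by
      simp only [Form.eval]
      linear_combination (-f.a * (p * s - q * r + 1)) * hdet
    rw [e]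
    exact ((h1.mul_right _).add ((h2.mul_right _).mul_right _)).add (h3.mul_right _)
  · have e : f.b = f.eval p r * (-2 * s * q) +
        (2 * f.a * p * q + f.b * (p * s + q * r) + 2 * f.c * r * s) * (p * s + q * r) +
        f.eval q s * (-2 * r * p) := by
      simp only [Form.eval]
      linear_combination (-f.b * (p * s - q * r + 1)) * hdet
    rw [e]
    exact ((h1.mul_right _).add (h2.mul_right _)).add (h3.mul_right _)
  · have e : f.c = f.eval p r * q ^ 2 +
        (2 * f.a * p * q + f.b * (p * s + q * r) + 2 * f.c * r * s) * (-q) * p +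
        f.eval q s * p ^ 2 := by
      simp only [Form.eval]
      linear_combination (-f.c * (p * s - q * r + 1)) * hdet
    rw [e]
    exact ((h1.mul_right _).add ((h2.mul_right _).mul_right _)).add (h3.mul_right _)
  · exact f.eval_pos hD h ⟨s, -q, by linear_combination hdet⟩

omit hD in
/-- A primitive form takes at coprime integers a value prime to `M`. -/
theorem Form.exists_coprime_value (f : Form D) {M : ℤ} (hM : M ≠ 0) :
    ∃ x y : ℤ, IsCoprime x y ∧ IsCoprime (f.eval x y) M := by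
  classical
  set S := M.natAbs.primeFactors
  set X := S.filter fun p : ℕ => (p : ℤ) ∣ f.a ∧ ¬(p : ℤ) ∣ f.c
  set Y := S.filter fun p : ℕ => ¬(p : ℤ) ∣ f.a
  have hS : ∀ p ∈ S, p.Prime := fun p hp => Nat.prime_of_mem_primeFactors hp
  have hmem : ∀ T : Finset ℕ, T ⊆ S → ∀ p : ℕ, p.Prime →
      ((p : ℤ) ∣ ((∏ q ∈ T, q : ℕ) : ℤ) ↔ p ∈ T) := fun T hT p hp => by
    rw [Int.natCast_dvd_natCast]
    refine ⟨fun h => ?_, fun h => Finset.dvd_prod_of_mem _ h⟩
    obtain ⟨q, hq, hpq⟩ := (Prime.dvd_finsetProd_iff hp.prime _).1 h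
    rwa [(Nat.prime_dvd_prime_iff_eq hp (hS q (hT hq))).1 hpq]
  refine ⟨((∏ q ∈ X, q : ℕ) : ℤ), ((∏ q ∈ Y, q : ℕ) : ℤ), ?_, ?_⟩
  · rw [Int.isCoprime_iff_nat_coprime, Int.natAbs_natCast, Int.natAbs_natCast]
    refine Nat.coprime_of_dvd fun p hp h1 h2 => ?_
    rw [← Int.natCast_dvd_natCast, hmem _ (Finset.filter_subset _ _) p hp, Finset.mem_filter]
      at h1 h2
    exact h2.2 h1.2.1
  · rw [Int.isCoprime_iff_nat_coprime]
    refine Nat.coprime_of_dvd fun p hp h1 h2 => ?_
    rw [← Int.natCast_dvd] at h1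
    have hpS : p ∈ S := Nat.mem_primeFactors.2 ⟨hp, h2, by simpa using hM⟩
    have hpi := Nat.prime_iff_prime_int.1 hp
    have hX := hmem X (Finset.filter_subset _ _) p hp
    have hY := hmem Y (Finset.filter_subset _ _) p hp
    set x : ℤ := ((∏ q ∈ X, q : ℕ) : ℤ)
    set y : ℤ := ((∏ q ∈ Y, q : ℕ) : ℤ)
    have hX' : (p : ℤ) ∣ x ↔ (p : ℤ) ∣ f.a ∧ ¬(p : ℤ) ∣ f.c := by simp [hX, X, hpS]
    have hY' : (p : ℤ) ∣ y ↔ ¬(p : ℤ) ∣ f.a := by simp [hY, Y, hpS]
    rw [Form.eval] at h1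
    by_cases ha : (p : ℤ) ∣ f.a
    · have hy : ¬(p : ℤ) ∣ y := fun h => hY'.1 h ha
      by_cases hc : (p : ℤ) ∣ f.c
      · have hx : ¬(p : ℤ) ∣ x := fun h => (hX'.1 h).2 hc
        have hb : (p : ℤ) ∣ f.b * x * y :=
          (Int.dvd_add_right (ha.mul_right _)).1 ((Int.dvd_add_left (hc.mul_right _)).1 h1)
        exact f.prim p hp ha
          ((hpi.dvd_or_dvd ((hpi.dvd_or_dvd hb).resolve_right hy)).resolve_right hx) hc
      · have hcy : (p : ℤ) ∣ f.c * y ^ 2 := (Int.dvd_add_right ((ha.mul_right _).add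
          (((hX'.2 ⟨ha, hc⟩).mul_left f.b).mul_right y))).1 h1
        exact hy (hpi.dvd_of_dvd_pow ((hpi.dvd_or_dvd hcy).resolve_left hc))
    · have hy := hY'.2 ha
      have hax : (p : ℤ) ∣ f.a * x ^ 2 := by
        rw [add_assoc, Int.dvd_add_left ((hy.mul_left _).add
          ((dvd_pow hy two_ne_zero).mul_left _))] at h1
        exact h1
      exact ha (hX'.1 (hpi.dvd_of_dvd_pow ((hpi.dvd_or_dvd hax).resolve_left ha))).1

/-- Two forms have united representatives with coprime first coefficients. -/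
theorem exists_united (f g : Form D) : ∃ (f' g' : Form D) (C : ℤ), f.Equivalent f' ∧
    g.Equivalent g' ∧ IsCoprime f'.a g'.a ∧ f'.b = g'.b ∧ f'.c = g'.a * C ∧ g'.c = f'.a * C := by
  obtain ⟨x, y, ⟨u, v, huv⟩, hcop⟩ := f.exists_coprime_value (g.a_ne_zero hD)
  obtain ⟨f₁, hf₁, ha₁, -⟩ :=
    f.exists_transform hD (p := x) (q := -v) (r := y) (s := u) (by linear_combination huv)
  rw [← ha₁] at hcop
  obtain ⟨h2, he⟩ : ∃ h2, g.b - f₁.b = 2 * h2 := by
    have hev : Even (g.b ^ 2 - f₁.b ^ 2) :=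
      ⟨2 * (g.a * g.c - f₁.a * f₁.c), by linear_combination g.disc - f₁.disc⟩
    rw [Int.even_sub, Int.even_pow' two_ne_zero, Int.even_pow' two_ne_zero, ← Int.even_sub] at hev
    exact ⟨_, (Int.two_mul_ediv_two_of_even hev).symm⟩
  obtain ⟨m, n, hmn⟩ := hcop
  obtain ⟨f', hf', hfa, hfb⟩ :=
    f₁.exists_transform hD (p := 1) (q := m * h2) (r := 0) (s := 1) (by ring)
  obtain ⟨g', hg', hga, hgb⟩ :=
    g.exists_transform hD (p := 1) (q := -(n * h2)) (r := 0) (s := 1) (by ring)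
  have hfa' : f'.a = f₁.a := by rw [hfa, Form.eval]; ring
  have hga' : g'.a = g.a := by rw [hga, Form.eval]; ring
  have hb : f'.b = g'.b := by
    rw [hfb, hgb]
    linear_combination -he + 2 * h2 * hmn
  have hcop' : IsCoprime f'.a g'.a := ⟨m, n, by rw [hfa', hga', hmn]⟩
  have hac : f'.a * f'.c = g'.a * g'.c := by
    have h1 := f'.disc
    have h2 := g'.disc
    rw [hb] at h1
    linarith
  obtain ⟨C, hC⟩ : g'.a ∣ f'.c := hcop'.symm.dvd_of_dvd_mul_left ⟨g'.c, hac⟩
  refine ⟨f', g', C, ?_, hg', hcop', hb, hC, mul_left_cancel₀ (g'.a_ne_zero hD) ?_⟩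
  · obtain ⟨p, q, r, s, hd, e1, e2, e3⟩ := hf₁
    obtain ⟨p', q', r', s', hd', e1', e2', e3'⟩ := hf'
    refine ⟨p * p' + q * r', p * q' + q * s', r * p' + s * r', r * q' + s * s', ?_, ?_, ?_, ?_⟩
    · linear_combination (p' * s' - q' * r') * hd + hd'
    · simp only [Form.eval] at e1 e3 e1' ⊢
      rw [e1', e1, e2, e3]
      ring
    · simp only [Form.eval] at e1 e3
      rw [e2', e1, e2, e3]
      ring
    · simp only [Form.eval] at e1 e3 e3' ⊢
      rw [e3', e1, e2, e3]
      ring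
  · rw [← hac, hC]
    ring

end Nonsquare

end FA.GaussComposition
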