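import Fermat.Agent.GaussComposition.Modules

/-!
# The group of classes and its finiteness

Composition is transported from the product of oriented modules, and the reduction
`|b| ≤ |a| ≤ |c|` bounds the coefficients of one form in every class.
-/

set_option autoImplicit false

noncomputable section

namespace FA.GaussComposition

variable {D : ℤ}

/-- The classes of forms under proper equivalence. -/
abbrev FormClass (D : ℤ) : Type := Quot (Form.Equivalent (D := D))

/-- The class of a form. -/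
abbrev Form.cl (f : Form D) : FormClass D := Quot.mk _ f

/-- The rule for united forms. -/
def IsComposition (μ : FormClass D → FormClass D → FormClass D) : Prop :=
  ∀ (f g h : Form D) (a₁ a₂ B C : ℤ), f.a = a₁ → f.b = B → f.c = a₂ * C → g.a = a₂ → g.b = B →
    g.c = a₁ * C → h.a = a₁ * a₂ → h.b = B → h.c = C →
    (∃ u v w : ℤ, u * a₁ + v * a₂ + w * B = 1) → μ f.cl g.cl = h.cl

theorem Form.exists_bezout (f : Form D) : ∃ u v w : ℤ, u * f.a + v * f.c + w * f.b = 1 := by
  set d : ℕ := Int.gcd (Int.gcd f.a f.c) f.b with hd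
  have hd1 : d = 1 := by
    by_contra hne
    obtain ⟨p, hp, hpd⟩ := Nat.exists_prime_and_dvd hne
    have hp' : (p : ℤ) ∣ (d : ℤ) := Int.natCast_dvd_natCast.2 hpd
    exact f.prim p hp ((hp'.trans (Int.gcd_dvd_left _ _)).trans (Int.gcd_dvd_left _ _))
      (hp'.trans (Int.gcd_dvd_right _ _))
      ((hp'.trans (Int.gcd_dvd_left _ _)).trans (Int.gcd_dvd_right _ _))
  have h1 := Int.gcd_eq_gcd_ab (Int.gcd f.a f.c : ℤ) f.b
  rw [← hd, hd1, Nat.cast_one, Int.gcd_eq_gcd_ab f.a f.c] at h1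
  exact ⟨Int.gcdA f.a f.c * Int.gcdA _ f.b, Int.gcdB f.a f.c * Int.gcdA _ f.b, Int.gcdB _ f.b,
    by linear_combination -h1⟩

/-- The opposite form. -/
def Form.opp (f : Form D) : Form D :=
  ⟨f.a, -f.b, f.c, by rw [neg_sq]; exact f.disc,
    fun p hp h1 h2 h3 => f.prim p hp h1 (dvd_neg.1 h2) h3, f.pos⟩

theorem exists_principal_form (hD4 : D % 4 = 0 ∨ D % 4 = 1) : ∃ e : Form D, e.a = 1 := by
  obtain ⟨k, hk⟩ : ∃ k, D = 4 * k + D % 4 := ⟨D / 4, (Int.mul_ediv_add_emod D 4).symm⟩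
  refine ⟨⟨1, D % 4, -k, ?_, fun p hp h1 _ _ => ?_, fun _ => one_pos⟩, rfl⟩
  · rcases hD4 with h | h <;> rw [h] at hk ⊢ <;> rw [hk] <;> ring
  · exact hp.one_lt.ne' (Nat.dvd_one.1 (Int.natCast_dvd_natCast.1 h1))

theorem equivalent_of_a_eq_one {f g : Form D} (hf : f.a = 1) (hg : g.a = 1) : f.Equivalent g := by
  obtain ⟨q, hq⟩ : ∃ q, g.b - f.b = 2 * q := by
    have hev : Even (g.b ^ 2 - f.b ^ 2) :=
      ⟨2 * (g.a * g.c - f.a * f.c), by linear_combination g.disc - f.disc⟩
    rw [Int.even_sub, Int.even_pow' two_ne_zero, Int.even_pow' two_ne_zero, ← Int.even_sub] at hev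
    exact ⟨_, (Int.two_mul_ediv_two_of_even hev).symm⟩
  refine ⟨1, q, 0, 1, by ring, ?_, ?_, mul_left_cancel₀ (four_ne_zero (α := ℤ)) ?_⟩
  · rw [Form.eval, hf, hg]
    ring
  · rw [hf]
    linear_combination hq
  · have h1 := f.disc
    have h2 := g.disc
    rw [hf] at h1
    rw [hg] at h2
    rw [Form.eval, hf]
    linear_combination h1 - h2 + (g.b + f.b + 2 * q) * hq

variable (hD : ¬IsSquare D)
include hD

theorem cl_eq_iff {f g : Form D} : f.cl = g.cl ↔ f.Equivalent g :=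
  ⟨fun h => equivalent_of_toClass hD
    (congrArg (Quot.lift Form.toClass fun _ _ h => toClass_eq_of_equivalent hD h) h),
    fun h => Quot.sound h⟩

theorem toClass_of_cl {f g : Form D} (h : f.cl = g.cl) : f.toClass = g.toClass :=
  toClass_eq_of_equivalent hD ((cl_eq_iff hD).1 h)

omit hD in
theorem exists_product {f g : Form D} {C : ℤ} (hb : f.b = g.b)
    (hf : f.c = g.a * C) (hg : g.c = f.a * C) :
    ∃ h : Form D, h.a = f.a * g.a ∧ h.b = f.b ∧ h.c = C := by
  refine ⟨⟨f.a * g.a, f.b, C, ?_, fun p hp h1 h2 h3 => ?_,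
    fun h => mul_pos (f.pos h) (g.pos h)⟩, rfl, rfl, rfl⟩
  · rw [mul_assoc 4, mul_assoc f.a, ← hf, ← mul_assoc]
    exact f.disc
  · rcases (Nat.prime_iff_prime_int.1 hp).dvd_or_dvd h1 with h | h
    · exact f.prim p hp h h2 (hf ▸ h3.mul_left _)
    · exact g.prim p hp h (hb ▸ h2) (hg ▸ h3.mul_left _)

theorem exists_compose (f g : Form D) : ∃ h : Form D, h.toClass = f.toClass * g.toClass := by
  obtain ⟨f', g', C, hf, hg, hcop, hb, hfc, hgc⟩ := exists_united hD f g
  obtain ⟨h, ha, hhb, hhc⟩ := exists_product hb hfc hgc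
  obtain ⟨u, v, huv⟩ := hcop
  refine ⟨h, ?_⟩
  rw [toClass_eq_of_equivalent hD hf, toClass_eq_of_equivalent hD hg]
  exact (toClass_mul ⟨rfl, rfl, hfc⟩ ⟨rfl, hb.symm⟩ ⟨ha, hhb⟩
    ⟨u, v, 0, by rw [zero_mul, add_zero, huv]⟩).symm

theorem principal_toClass_mul {e : Form D} (he : e.a = 1) (f : Form D) :
    e.toClass * f.toClass = f.toClass := by
  let e' : Form D := ⟨1, f.b, f.a * f.c, by rw [mul_one, ← mul_assoc]; exact f.disc,
    fun p hp h1 _ _ => hp.one_lt.ne' (Nat.dvd_one.1 (Int.natCast_dvd_natCast.1 h1)),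
    fun _ => one_pos⟩
  rw [toClass_eq_of_equivalent hD (equivalent_of_a_eq_one he (rfl : e'.a = 1))]
  exact toClass_mul (C := f.c) ⟨rfl, rfl, rfl⟩ ⟨rfl, rfl⟩ ⟨(one_mul f.a).symm, rfl⟩
    ⟨1, 0, 0, by ring⟩

theorem opp_toClass_mul {e : Form D} (he : e.a = 1) (f : Form D) :
    f.opp.toClass * f.toClass = e.toClass := by
  obtain ⟨g, hg, hga, hgb⟩ :=
    f.opp.exists_transform hD (p := 0) (q := -1) (r := 1) (s := 0) (by norm_num)
  have hga' : g.a = f.c := by rw [hga, Form.eval, Form.opp]; ring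
  have hgb' : g.b = f.b := by rw [hgb, Form.opp]; ring
  let h : Form D := ⟨f.a * f.c, f.b, 1, by rw [mul_one, ← mul_assoc]; exact f.disc,
    fun p hp _ _ h3 => hp.one_lt.ne' (Nat.dvd_one.1 (Int.natCast_dvd_natCast.1 h3)),
    fun hneg => mul_pos (f.pos hneg) (by
      have h01 := f.eval_pos hD hneg (isCoprime_one_right (x := (0 : ℤ)))
      simpa [Form.eval] using h01)⟩
  obtain ⟨h', hh, hha, -⟩ :=
    h.exists_transform hD (p := 0) (q := -1) (r := 1) (s := 0) (by norm_num)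
  refine (mul_comm f.opp.toClass f.toClass).trans ?_
  rw [toClass_eq_of_equivalent hD hg,
    toClass_mul (h := h) (C := 1) ⟨rfl, rfl, (mul_one f.c).symm⟩ ⟨hga', hgb'⟩ ⟨rfl, rfl⟩
      f.exists_bezout,
    toClass_eq_of_equivalent hD hh]
  exact toClass_eq_of_equivalent hD (equivalent_of_a_eq_one (by rw [hha, Form.eval]; ring) he)

/-- **Gauss's group of classes of forms.** -/
theorem exists_group (hD4 : D % 4 = 0 ∨ D % 4 = 1) :
    ∃ _ : CommGroup (FormClass D), (∀ f : Form D, f.a = 1 → f.cl = 1) ∧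
      (∀ f g : Form D, g.a = f.a → g.b = -f.b → g.c = f.c → g.cl = f.cl⁻¹) ∧
      IsComposition (fun x y : FormClass D => x * y) ∧
      ∀ (f g h : Form D) (m n : ℤ), h.cl = f.cl * g.cl → f.Represents m → g.Represents n →
        h.Represents (m * n) := by
  classical
  obtain ⟨e, he⟩ := exists_principal_form hD4
  set φ : FormClass D → (similarity D).Quotient :=
    Quot.lift Form.toClass fun _ _ h => toClass_eq_of_equivalent hD h
  have hφ : Function.Injective φ := fun x y => by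
    obtain ⟨f, rfl⟩ := Quot.exists_rep x
    obtain ⟨g, rfl⟩ := Quot.exists_rep y
    exact fun h => Quot.sound (equivalent_of_toClass hD h)
  choose comp hcomp using exists_compose hD
  let mul' : FormClass D → FormClass D → FormClass D := fun x y => (comp x.out y.out).cl
  have hmul : ∀ x y, φ (mul' x y) = φ x * φ y := fun x y => by
    conv_rhs => rw [← Quot.out_eq x, ← Quot.out_eq y]
    exact hcomp _ _
  have hone : ∀ x, φ e.cl * φ x = φ x := fun x => by
    obtain ⟨f, rfl⟩ := Quot.exists_rep x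
    exact principal_toClass_mul hD he f
  let inv' : FormClass D → FormClass D := fun x => x.out.opp.cl
  have hinv : ∀ x, φ (inv' x) * φ x = φ e.cl := fun x => by
    conv_lhs => arg 2; rw [← Quot.out_eq x]
    exact opp_toClass_mul hD he _
  let G : CommGroup (FormClass D) :=
    { mul := mul'
      one := e.cl
      inv := inv'
      mul_assoc := fun x y z => hφ (by
        show φ (mul' (mul' x y) z) = φ (mul' x (mul' y z))
        rw [hmul, hmul, hmul, hmul]
        exact mul_assoc (φ x) (φ y) (φ z))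
      one_mul := fun x => hφ ((hmul _ _).trans (hone x))
      mul_one := fun x => hφ ((hmul _ _).trans
        ((mul_comm (φ x) (φ e.cl)).trans (hone x)))
      inv_mul_cancel := fun x => hφ ((hmul _ _).trans (hinv x))
      mul_comm := fun x y => hφ (by
        show φ (mul' x y) = φ (mul' y x)
        rw [hmul, hmul]
        exact mul_comm (φ x) (φ y)) }
  have hG : ∀ x y : FormClass D, φ (x * y) = φ x * φ y := hmul
  have h1 : ∀ f : Form D, f.a = 1 → f.cl = 1 := fun f hf =>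
    Quot.sound (equivalent_of_a_eq_one hf he)
  have hcompo : IsComposition (fun x y : FormClass D => x * y) :=
    fun f g h a₁ a₂ B C hfa hfb hfc hga hgb _ hha hhb _ hcop => hφ ((hG _ _).trans
      (toClass_mul ⟨hfa, hfb, hfc⟩ ⟨hga, hgb⟩ ⟨hha, hhb⟩ hcop))
  refine ⟨G, h1, fun f g hga hgb hgc => eq_inv_of_mul_eq_one_left (hφ ?_), hcompo, ?_⟩
  · rw [hG, show g = f.opp from Form.ext hga hgb hgc]
    exact opp_toClass_mul hD he f
  intro f g h m n hh hf hg
  obtain ⟨f', g', C, hff, hgg, hcop, hb, hfc, hgc⟩ := exists_united hD f g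
  obtain ⟨k, ha, hkb, hkc⟩ := exists_product hb hfc hgc
  obtain ⟨u, v, huv⟩ := hcop
  have hk : k.cl = h.cl := by
    rw [hh, show f.cl = f'.cl from Quot.sound hff, show g.cl = g'.cl from Quot.sound hgg]
    exact (hcompo f' g' k f'.a g'.a f'.b C rfl rfl hfc rfl hb.symm hgc ha hkb hkc
      ⟨u, v, 0, by rw [zero_mul, add_zero, huv]⟩).symm
  obtain ⟨x₁, y₁, rfl⟩ := (hff.represents_iff m).2 hf
  obtain ⟨x₂, y₂, rfl⟩ := (hgg.represents_iff n).2 hg
  refine (((cl_eq_iff hD).1 hk).represents_iff _).2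
    ⟨x₁ * x₂ - C * y₁ * y₂, f'.a * x₁ * y₂ + g'.a * y₁ * x₂ + f'.b * y₁ * y₂, ?_⟩
  simp only [Form.eval, ha, hkb, hkc, hfc, hgc, ← hb]
  ring

/-- The rule determines the law. -/
theorem composition_unique {μ ν : FormClass D → FormClass D → FormClass D} (hμ : IsComposition μ)
    (hν : IsComposition ν) : μ = ν := by
  funext x y
  obtain ⟨f, rfl⟩ := Quot.exists_rep x
  obtain ⟨g, rfl⟩ := Quot.exists_rep y
  obtain ⟨f', g', C, hf, hg, hcop, hb, hfc, hgc⟩ := exists_united hD f g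
  obtain ⟨h, ha, hhb, hhc⟩ := exists_product hb hfc hgc
  obtain ⟨u, v, huv⟩ := hcop
  rw [Quot.sound hf, Quot.sound hg]
  exact (hμ f' g' h f'.a g'.a f'.b C rfl rfl hfc rfl hb.symm hgc ha hhb hhc
    ⟨u, v, 0, by rw [zero_mul, add_zero, huv]⟩).trans
    (hν f' g' h f'.a g'.a f'.b C rfl rfl hfc rfl hb.symm hgc ha hhb hhc
    ⟨u, v, 0, by rw [zero_mul, add_zero, huv]⟩).symm

theorem exists_reduced (n : ℕ) : ∀ f : Form D, f.a.natAbs = n →
    ∃ g : Form D, g.cl = f.cl ∧ |g.b| ≤ |g.a| ∧ |g.a| ≤ |g.c| := by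
  induction n using Nat.strong_induction_on with
  | _ n ih =>
    intro f hn
    have ha := f.a_ne_zero hD
    have hm : 2 * f.a ≠ 0 := mul_ne_zero two_ne_zero ha
    obtain ⟨t, ht⟩ : ∃ t, |f.b + 2 * f.a * t| ≤ |f.a| := by
      set r := f.b % (2 * f.a) with hr
      have h0 : 0 ≤ r := Int.emod_nonneg _ hm
      have h1 : r < |2 * f.a| := Int.emod_lt_abs _ hm
      have h2 : r + 2 * f.a * (f.b / (2 * f.a)) = f.b := Int.emod_add_mul_ediv _ _
      rcases le_or_gt r |f.a| with h | h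
      · exact ⟨-(f.b / (2 * f.a)), by
          rw [show f.b + 2 * f.a * -(f.b / (2 * f.a)) = r by linarith, abs_of_nonneg h0]
          exact h⟩
      rw [abs_mul, abs_two] at h1
      rcases lt_or_gt_of_ne ha with hneg | hpos
      · refine ⟨-(f.b / (2 * f.a)) + 1, abs_le.2 ⟨?_, ?_⟩⟩ <;>
          rw [abs_of_neg hneg] at * <;> linarith
      · refine ⟨-(f.b / (2 * f.a)) - 1, abs_le.2 ⟨?_, ?_⟩⟩ <;>
          rw [abs_of_pos hpos] at * <;> linarith
    obtain ⟨g, hg, hga, hgb⟩ :=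
      f.exists_transform hD (p := 1) (q := t) (r := 0) (s := 1) (by ring)
    have hga' : g.a = f.a := by rw [hga, Form.eval]; ring
    have hgb' : g.b = f.b + 2 * f.a * t := by rw [hgb]; ring
    rcases le_or_gt |g.a| |g.c| with hle | hlt
    · exact ⟨g, (Quot.sound hg).symm, by rwa [hgb', hga'], hle⟩
    obtain ⟨k, hk, hka, -⟩ :=
      g.exists_transform hD (p := 0) (q := -1) (r := 1) (s := 0) (by norm_num)
    have hka' : k.a = g.c := by rw [hka, Form.eval]; ring
    obtain ⟨j, hj, hj'⟩ := ih k.a.natAbs (by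
      rw [hka', ← hn, ← hga']
      rw [Int.abs_eq_natAbs, Int.abs_eq_natAbs] at hlt
      exact_mod_cast hlt) k rfl
    exact ⟨j, hj.trans ((Quot.sound hk).symm.trans (Quot.sound hg).symm), hj'⟩

/-- **There are finitely many classes.** -/
theorem finite_formClass : Finite (FormClass D) := by
  set B := |D| + 1
  set S := {f : Form D | |f.b| ≤ |f.a| ∧ |f.a| ≤ |f.c|}
  have hbound : ∀ f ∈ S, f.a ∈ Set.Icc (-B) B ∧ f.b ∈ Set.Icc (-B) B ∧ f.c ∈ Set.Icc (-B) B := by
    rintro f ⟨h1, h2⟩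
    have hd := f.disc
    have ha : 1 ≤ |f.a| := Int.one_le_abs (f.a_ne_zero hD)
    have h4 : 4 * (|f.a| * |f.c|) ≤ |D| + f.b ^ 2 := by
      rw [← abs_mul, show (4 : ℤ) * |f.a * f.c| = |4 * (f.a * f.c)| by rw [abs_mul]; norm_num,
        show 4 * (f.a * f.c) = f.b ^ 2 - D by linarith]
      refine (abs_sub _ _).trans ?_
      rw [abs_pow, sq_abs, add_comm]
    have hb2 : f.b ^ 2 ≤ |f.a| * |f.a| := by
      rw [← sq_abs f.b, sq]
      exact mul_le_mul h1 h1 (abs_nonneg _) (abs_nonneg _)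
    have ha2 : |f.a| * |f.a| ≤ |D| := by
      nlinarith [mul_le_mul_of_nonneg_left h2 (abs_nonneg f.a)]
    have haB : |f.a| ≤ B := by nlinarith
    have hcB : |f.c| ≤ B := by nlinarith
    exact ⟨abs_le.1 haB, abs_le.1 (h1.trans haB), abs_le.1 hcB⟩
  have hS : S.Finite := ((Set.finite_Icc (-B) B).prod ((Set.finite_Icc (-B) B).prod
    (Set.finite_Icc (-B) B))).of_injOn (f := fun f : Form D => (f.a, f.b, f.c))
    (fun f hf => hbound f hf) (fun f _ g _ h => by
      simp only [Prod.mk.injEq] at h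
      exact Form.ext h.1 h.2.1 h.2.2)
  have := hS.to_subtype
  exact Finite.of_surjective (fun f : S => f.1.cl) fun x => by
    obtain ⟨f, rfl⟩ := Quot.exists_rep x
    obtain ⟨g, hg, h⟩ := exists_reduced hD _ f rfl
    exact ⟨⟨g, h⟩, hg⟩

end FA.GaussComposition
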