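import Fermat.Agent.GaussComposition.Forms

/-!
# Forms as oriented modules

`(a, b, c)` gives the module `ℤ a + ℤ θ`, `θ = (-b + √D) / 2`, with the sign of `a`. Two forms are
properly equivalent exactly when a unit `u` of `ℚ[√D]` carries one module to the other and the
signs differ by the sign of `N u`; the module of `(a₁ a₂, B, C)` is the product of those of
`(a₁, B, a₂ C)` and `(a₂, B, a₁ C)`.
-/

set_option autoImplicit false

noncomputable section

namespace FA.GaussComposition

open QuadraticAlgebra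
open scoped Pointwise

variable {D : ℤ}

/-- `ℚ[√D]`. -/
abbrev Quad (D : ℤ) : Type := QuadraticAlgebra ℚ (D : ℚ) 0

theorem norm_quad (z : Quad D) : z.norm = z.re ^ 2 - (D : ℚ) * z.im ^ 2 := by
  rw [norm_def]
  ring

/-- The root `(-b + √D) / 2`. -/
def Form.root (f : Form D) : Quad D := ⟨-(f.b : ℚ) / 2, 1 / 2⟩

/-- The element `a x - θ y`, of norm `a f(x, y)`. -/
def Form.lin (f : Form D) (x y : ℤ) : Quad D :=
  ⟨(f.a : ℚ) * x + (f.b : ℚ) / 2 * y, -(y : ℚ) / 2⟩

theorem Form.norm_lin (f : Form D) (x y : ℤ) : (f.lin x y).norm = (f.a : ℚ) * f.eval x y := by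
  rw [norm_quad, Form.lin, Form.eval]
  have h : (D : ℚ) = (f.b : ℚ) ^ 2 - 4 * f.a * f.c := by exact_mod_cast f.disc.symm
  push_cast
  rw [h]
  ring

theorem Form.lin_eq (f : Form D) (x y : ℤ) :
    f.lin x y = x • (f.a : Quad D) + (-y) • f.root := by
  ext <;> simp [Form.lin, Form.root] <;> ring

/-- The module of a form. -/
def Form.module (f : Form D) : Submodule ℤ (Quad D) := Submodule.span ℤ {(f.a : Quad D), f.root}

theorem Form.mem_module {f : Form D} {z : Quad D} : z ∈ f.module ↔ ∃ x y, f.lin x y = z := by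
  rw [Form.module, Submodule.mem_span_pair]
  exact ⟨fun ⟨m, n, h⟩ => ⟨m, -n, by rw [f.lin_eq, neg_neg]; exact h⟩,
    fun ⟨x, y, h⟩ => ⟨x, -y, by rw [← f.lin_eq]; exact h⟩⟩

theorem Form.lin_one_zero (f : Form D) : f.lin 1 0 = f.a := by
  ext <;> simp [Form.lin]

theorem Form.neg_lin_zero_one (f : Form D) : -f.lin 0 1 = f.root := by
  ext <;> simp [Form.lin, Form.root] <;> ring

theorem Form.lin_comp (f : Form D) (p q r s x y : ℤ) :
    f.lin (p * x + q * y) (r * x + s * y) =
      (x : Quad D) * f.lin p r + (y : Quad D) * f.lin q s := by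
  ext <;> simp [Form.lin] <;> ring

/-- The data carried by a form. -/
abbrev Oriented (D : ℤ) : Type := Submodule ℤ (Quad D) × SignType

/-- A unit as oriented data. -/
def principal (u : (Quad D)ˣ) : Oriented D :=
  (Submodule.span ℤ {(u : Quad D)}, SignType.sign ((u : Quad D).norm))

theorem principal_mul (u v : (Quad D)ˣ) : principal (u * v) = principal u * principal v := by
  simp [principal, Submodule.span_mul_span, sign_mul]

theorem principal_one : principal (1 : (Quad D)ˣ) = 1 := by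
  simp [principal, Submodule.one_eq_span, Prod.ext_iff]

/-- Equality up to units. -/
def similarity (D : ℤ) : Con (Oriented D) where
  r x y := ∃ u, y = principal u * x
  iseqv :=
    { refl := fun x => ⟨1, by rw [principal_one, one_mul]⟩
      symm := fun {x y} ⟨u, hu⟩ => ⟨u⁻¹, by
        rw [hu, ← mul_assoc, ← principal_mul, inv_mul_cancel, principal_one, one_mul]⟩
      trans := fun {x y z} ⟨u, hu⟩ ⟨v, hv⟩ => ⟨v * u, by
        rw [hv, hu, principal_mul, mul_assoc]⟩ }
  mul' := fun {a b c d} ⟨u, hu⟩ ⟨v, hv⟩ => ⟨u * v, by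
    rw [hu, hv, principal_mul, mul_mul_mul_comm]⟩

/-- The class of the module of a form. -/
def Form.toClass (f : Form D) : (similarity D).Quotient :=
  ((f.module, SignType.sign (f.a : ℚ)) : Oriented D)

theorem span_singleton_mul_module (u : Quad D) (f : Form D) :
    Submodule.span ℤ {u} * f.module = Submodule.span ℤ {u * (f.a : Quad D), u * f.root} := by
  rw [Form.module, Submodule.span_mul_span]
  congr 1
  rw [Set.singleton_mul, Set.image_pair]

theorem exists_matrix {f g : Form D} {u : Quad D}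
    (h : g.module = Submodule.span ℤ {u} * f.module) : ∃ p q r s : ℤ,
      (g.a : ℚ) = u.norm * f.a * (p * s - q * r : ℤ) ∧
      ∀ x y, (g.a : ℚ) * g.eval x y = u.norm * f.a * f.eval (p * x + q * y) (r * x + s * y) := by
  have hm : ∀ z ∈ g.module, ∃ x y, u * f.lin x y = z := fun z hz => by
    rw [h] at hz
    obtain ⟨w, hw, rfl⟩ := Submodule.mem_span_singleton_mul.1 hz
    obtain ⟨x, y, rfl⟩ := Form.mem_module.1 hw
    exact ⟨x, y, rfl⟩
  obtain ⟨p, r, h1⟩ := hm (g.lin 1 0) (Form.mem_module.2 ⟨1, 0, rfl⟩)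
  obtain ⟨q, s, h2⟩ := hm (g.lin 0 1) (Form.mem_module.2 ⟨0, 1, rfl⟩)
  refine ⟨p, q, r, s, ?_, fun x y => ?_⟩
  · have hp : ((star (u * f.lin p r)) * (u * f.lin q s)).im =
        (star (g.lin 1 0) * g.lin 0 1).im := by rw [h1, h2]
    rw [star_mul', mul_mul_mul_comm, mul_comm (star u), ← algebraMap_norm_eq_mul_star] at hp
    simp only [Form.lin, im_mul, re_mul, re_star, im_star, algebraMap_re, algebraMap_im,
      Int.cast_one, Int.cast_zero] at hp
    push_cast
    linear_combination (2 : ℚ) * hp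
  · have e : g.lin x y = u * f.lin (p * x + q * y) (r * x + s * y) := by
      rw [f.lin_comp, mul_add, mul_left_comm, h1, mul_left_comm u, h2, ← g.lin_comp]
      congr 1 <;> ring
    rw [← g.norm_lin, e, map_mul, f.norm_lin]
    ring

variable (hD : ¬IsSquare D)
include hD

theorem equivalent_of_toClass {f g : Form D} (h : f.toClass = g.toClass) : f.Equivalent g := by
  obtain ⟨u, hu⟩ := (similarity D).eq.1 h
  rw [principal, Prod.mk_mul_mk, Prod.mk.injEq] at hu
  obtain ⟨p, q, r, s, hdet, hev⟩ := exists_matrix hu.1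
  obtain ⟨p', q', r', s', hdet', -⟩ := exists_matrix (f := g) (g := f)
    (u := ((u⁻¹ : (Quad D)ˣ) : Quad D))
    (by rw [hu.1, ← mul_assoc, Submodule.span_mul_span, Set.singleton_mul_singleton, Units.inv_mul,
      ← Submodule.one_eq_span, one_mul])
  have hfa : (f.a : ℚ) ≠ 0 := Int.cast_ne_zero.2 (f.a_ne_zero hD)
  have hga : (g.a : ℚ) ≠ 0 := Int.cast_ne_zero.2 (g.a_ne_zero hD)
  set N := (u : Quad D).norm with hN
  have hNN : ((u⁻¹ : (Quad D)ˣ) : Quad D).norm * N = 1 := by
    rw [hN, ← map_mul, Units.inv_mul, map_one]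
  set δ : ℤ := p * s - q * r
  have hunit : δ * (p' * s' - q' * r') = 1 := by
    have : ((δ * (p' * s' - q' * r') : ℤ) : ℚ) * f.a = f.a := by
      conv_rhs => rw [hdet', hdet]
      rw [Int.cast_mul]
      linear_combination (-(δ : ℚ) * ((p' * s' - q' * r' : ℤ) : ℚ) * f.a) * hNN
    exact_mod_cast (mul_eq_right₀ hfa).1 this
  have hpos : (0 : ℚ) < δ := by
    have hs := hu.2
    rw [hdet, sign_mul, sign_mul] at hs
    have hne : SignType.sign N * SignType.sign (f.a : ℚ) ≠ 0 := by
      rw [← sign_mul, sign_ne_zero]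
      exact mul_ne_zero (fun h0 => by rw [h0, mul_zero] at hNN; exact zero_ne_one hNN) hfa
    exact sign_eq_one_iff.1 ((mul_eq_left₀ hne).1 hs)
  obtain hδ : δ = 1 := (Int.eq_one_or_neg_one_of_mul_eq_one hunit).resolve_right fun h => by
    rw [h] at hpos
    norm_num at hpos
  have key : ∀ x y, g.eval x y = f.eval (p * x + q * y) (r * x + s * y) := fun x y => by
    have h2 := hev x y
    rw [hδ, Int.cast_one, mul_one] at hdet
    rw [← hdet] at h2
    exact_mod_cast mul_left_cancel₀ hga h2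
  have k1 := key 1 0
  have k2 := key 0 1
  have k3 := key 1 1
  simp only [Form.eval] at k1 k2 k3
  refine ⟨p, q, r, s, hδ, ?_, ?_, ?_⟩
  · rw [Form.eval]
    linear_combination k1
  · linear_combination k3 - k1 - k2
  · rw [Form.eval]
    linear_combination k2

theorem toClass_eq_of_equivalent {f g : Form D} (h : f.Equivalent g) : f.toClass = g.toClass := by
  obtain ⟨p, q, r, s, hdet, ha, hb, hc⟩ := h
  have hfa : (f.a : ℚ) ≠ 0 := Int.cast_ne_zero.2 (f.a_ne_zero hD)
  have hga : (g.a : ℚ) ≠ 0 := Int.cast_ne_zero.2 (g.a_ne_zero hD)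
  have hn : (f.lin p r).norm = (f.a : ℚ) * g.a := by rw [f.norm_lin, ha]
  obtain ⟨w, hw⟩ : IsUnit (f.lin p r) := by
    rw [isUnit_iff_norm_isUnit, hn]
    exact (mul_ne_zero hfa hga).isUnit
  have hgu : IsUnit (g.a : Quad D) := by
    rw [isUnit_iff_norm_isUnit, norm_intCast]
    exact (pow_ne_zero 2 hga).isUnit
  obtain ⟨w', hw'⟩ := hgu
  set u := w' * w⁻¹ with hu
  have h1 : (u : Quad D) * f.lin p r = g.a := by
    rw [← hw, hu, Units.val_mul, mul_assoc, Units.inv_mul, mul_one, hw']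
  have hD' : (D : ℚ) = (f.b : ℚ) ^ 2 - 4 * f.a * f.c := by exact_mod_cast f.disc.symm
  have hdet' : (p : ℚ) * s - q * r = 1 := by exact_mod_cast hdet
  have h2 : (u : Quad D) * f.lin q s = g.lin 0 1 := by
    refine (w.isUnit.mul_left_inj).1 ?_
    rw [hw, mul_right_comm, h1]
    have hga' : (g.a : ℚ) = f.eval p r := by rw [ha]
    have hgb' : (g.b : ℚ) = (2 * f.a * p * q + f.b * (p * s + q * r) + 2 * f.c * r * s : ℤ) := by
      rw [hb]
    simp only [Form.eval] at hga'
    push_cast at hga' hgb'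
    ext <;>
      simp only [re_mul, im_mul, re_intCast, im_intCast, Form.lin, Int.cast_zero, Int.cast_one,
      hga', hgb', hD']
    · linear_combination ((r : ℚ) * f.b ^ 2 / 4 - r * f.a * f.c) * hdet'
    · linear_combination (-((f.a : ℚ) * p / 2 + f.b * r / 4)) * hdet'
  refine (similarity D).eq.2 ⟨u, ?_⟩
  rw [principal, Prod.mk_mul_mk, Prod.ext_iff]
  refine ⟨?_, ?_⟩
  · have key : ∀ x y, (u : Quad D) * f.lin (p * x + q * y) (r * x + s * y) = g.lin x y :=
      fun x y => by
      rw [f.lin_comp, mul_add, mul_left_comm, h1, mul_left_comm (u : Quad D), h2,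
        ← g.lin_one_zero, ← g.lin_comp]
      congr 1 <;> ring
    refine le_antisymm (fun z hz => ?_) ?_
    · obtain ⟨x, y, rfl⟩ := Form.mem_module.1 hz
      rw [← key]
      exact Submodule.mem_span_singleton_mul.2 ⟨_, Form.mem_module.2 ⟨_, _, rfl⟩, rfl⟩
    · rintro z hz
      obtain ⟨w₁, hw₁, rfl⟩ := Submodule.mem_span_singleton_mul.1 hz
      obtain ⟨x, y, rfl⟩ := Form.mem_module.1 hw₁
      refine Form.mem_module.2 ⟨s * x - q * y, p * y - r * x, ?_⟩
      rw [← key]
      congr 2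
      · linear_combination x * hdet
      · linear_combination y * hdet
  · have hnu : (u : Quad D).norm * ((f.a : ℚ) * g.a) = (g.a : ℚ) ^ 2 := by
      rw [← hn, ← map_mul, h1, norm_intCast]
    have hnu' : (u : Quad D).norm * f.a = g.a := mul_right_cancel₀ hga (by linear_combination hnu)
    rw [← sign_mul, hnu']

omit hD in
theorem toClass_mul {f g h : Form D} {a₁ a₂ B C : ℤ} (hf : f.a = a₁ ∧ f.b = B ∧ f.c = a₂ * C)
    (hg : g.a = a₂ ∧ g.b = B) (hh : h.a = a₁ * a₂ ∧ h.b = B)
    (hcop : ∃ u v w : ℤ, u * a₁ + v * a₂ + w * B = 1) :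
    f.toClass * g.toClass = h.toClass := by
  obtain ⟨u, v, w, huvw⟩ := hcop
  rw [Form.toClass, Form.toClass, Form.toClass, ← Con.coe_mul]
  congr 1
  rw [Prod.mk_mul_mk, Prod.ext_iff]
  refine ⟨?_, by simp [hf.1, hg.1, hh.1, sign_mul]⟩
  have rf : h.root = f.root ∧ g.root = f.root := by simp [Form.root, hf.2.1, hg.2, hh.2]
  rw [Form.module, Form.module, Form.module, rf.1, rf.2, hf.1, hg.1, hh.1]
  set θ := f.root with hθ
  have hsq : θ * θ = -(B : Quad D) * θ - ((a₁ * a₂ * C : ℤ) : Quad D) := by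
    have hD' : (D : ℚ) = (B : ℚ) ^ 2 - 4 * a₁ * (a₂ * C) := by
      have := f.disc
      rw [hf.1, hf.2.1, hf.2.2] at this
      exact_mod_cast this.symm
    ext <;> simp [hθ, Form.root, hf.2.1, hD'] <;> ring
  have z : ∀ (m : ℤ) (x : Quad D) {S : Submodule ℤ (Quad D)}, x ∈ S → (m : Quad D) * x ∈ S :=
    fun m x S hx => by
    rw [← zsmul_eq_mul]
    exact S.smul_mem m hx
  rw [Submodule.span_mul_span]
  refine le_antisymm (Submodule.span_le.2 ?_) (Submodule.span_le.2 ?_)
  · rintro _ ⟨x, hx, y, hy, rfl⟩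
    set S := Submodule.span ℤ {((a₁ * a₂ : ℤ) : Quad D), θ}
    have j1 : ((a₁ * a₂ : ℤ) : Quad D) ∈ S := Submodule.subset_span (Set.mem_insert _ _)
    have j2 : θ ∈ S := Submodule.subset_span (Set.mem_insert_of_mem _ rfl)
    rcases hx with rfl | rfl <;> rcases hy with rfl | rfl <;> show _ * _ ∈ S
    · simpa using j1
    · exact z _ _ j2
    · rw [mul_comm]
      exact z _ _ j2
    · rw [hsq, ← Int.cast_neg]
      refine sub_mem (z _ _ j2) ?_
      rw [Int.cast_mul, mul_comm]
      exact z _ _ j1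
  · rintro x (rfl | rfl)
    · exact Submodule.subset_span
        ⟨(a₁ : Quad D), Set.mem_insert _ _, (a₂ : Quad D), Set.mem_insert _ _,
          (Int.cast_mul a₁ a₂).symm⟩
    · set S := Submodule.span ℤ
        (({((a₁ : ℤ) : Quad D), θ} : Set (Quad D)) * ({((a₂ : ℤ) : Quad D), θ} : Set (Quad D)))
      have i1 : (a₁ : Quad D) * a₂ ∈ S :=
        Submodule.subset_span ⟨_, Set.mem_insert _ _, _, Set.mem_insert _ _, rfl⟩
      have i2 : (a₁ : Quad D) * θ ∈ S :=
        Submodule.subset_span ⟨_, Set.mem_insert _ _, _, Set.mem_insert_of_mem _ rfl, rfl⟩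
      have i3 : θ * (a₂ : Quad D) ∈ S :=
        Submodule.subset_span ⟨_, Set.mem_insert_of_mem _ rfl, _, Set.mem_insert _ _, rfl⟩
      have i4 : θ * θ ∈ S := Submodule.subset_span
        ⟨_, Set.mem_insert_of_mem _ rfl, _, Set.mem_insert_of_mem _ rfl, rfl⟩
      have e : θ = (u : Quad D) * (a₁ * θ) + (v : Quad D) * (θ * a₂) +
          ((-w : ℤ) : Quad D) * (θ * θ) + ((-(w * C) : ℤ) : Quad D) * (a₁ * a₂) := by
        have h1 : (u : Quad D) * a₁ + v * a₂ + w * B = 1 := by
          exact_mod_cast congrArg (Int.cast : ℤ → Quad D) huvw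
        rw [hsq]
        push_cast
        linear_combination -θ * h1
      show θ ∈ S
      exact (congrArg (· ∈ S) e).mpr
        (add_mem (add_mem (add_mem (z u _ i2) (z v _ i3)) (z _ _ i4)) (z _ _ i1))

end FA.GaussComposition
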